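import Fermat.Agent.L.Ihara.Interfaces

/-!
# Cluster L / IHARA / (B): arithmetic of `ℤ[1/q] = Localization.Away q`

Owner: helper73.  Small API: every element is `n / q ^ k`, integers embed, divisibility by
integers prime to `q` can be tested on integers, every nonzero element is a unit times a
positive integer prime to `q`, and every element is congruent to an integer modulo an integer
prime to `q`.
-/

set_option autoImplicit false

noncomputable section

namespace Fermat.Agent.LIhB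

open Fermat.Agent.LIh

variable {q : ℕ}

theorem isUnit_q (q : ℕ) : IsUnit ((q : ℕ) : Zq q) := by
  have h := IsLocalization.Away.algebraMap_isUnit (S := Zq q) (q : ℤ)
  simpa using h

theorem exists_int_pow (x : Zq q) : ∃ (n : ℤ) (k : ℕ), x * ((q : ℕ) : Zq q) ^ k = n := by
  obtain ⟨⟨n, s⟩, h⟩ := IsLocalization.surj (Submonoid.powers (q : ℤ)) x
  obtain ⟨k, hk⟩ := s.2
  refine ⟨n, k, ?_⟩
  have h' : x * algebraMap ℤ (Zq q) (s : ℤ) = algebraMap ℤ (Zq q) n := h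
  rw [← hk] at h'
  simpa using h'

theorem intCast_injective (hq : q ≠ 0) : Function.Injective (Int.cast : ℤ → Zq q) := by
  have h : Function.Injective (algebraMap ℤ (Zq q)) :=
    IsLocalization.injective (Zq q) (M := Submonoid.powers (q : ℤ))
      (powers_le_nonZeroDivisors_of_noZeroDivisors (by exact_mod_cast hq))
  intro a b hab
  apply h
  simpa using hab

theorem intCast_dvd_iff (hq : q.Prime) {m n : ℤ} (hm : IsCoprime m (q : ℤ)) :
    ((m : ℤ) : Zq q) ∣ ((n : ℤ) : Zq q) ↔ m ∣ n := by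
  constructor
  · rintro ⟨x, hx⟩
    obtain ⟨x0, k, hk⟩ := exists_int_pow x
    have h1 : ((n * (q : ℤ) ^ k : ℤ) : Zq q) = ((m * x0 : ℤ) : Zq q) := by
      push_cast
      rw [hx, ← hk]
      ring
    have h2 := intCast_injective hq.ne_zero h1
    have h3 : m ∣ n * (q : ℤ) ^ k := ⟨x0, h2⟩
    exact (hm.pow_right (n := k)).dvd_of_dvd_mul_right h3
  · rintro ⟨e, rfl⟩
    exact ⟨(e : Zq q), by push_cast; ring⟩

theorem exists_int_sub_dvd {m : ℤ} (hm : IsCoprime m (q : ℤ)) (x : Zq q) :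
    ∃ n : ℤ, ((m : ℤ) : Zq q) ∣ x - n := by
  obtain ⟨x0, k, hk⟩ := exists_int_pow x
  obtain ⟨r, s, hrs⟩ := (hm.pow_right (n := k))
  refine ⟨x0 * s, x * r, ?_⟩
  have h1 : ((r * m + s * (q : ℤ) ^ k : ℤ) : Zq q) = 1 := by rw [hrs]; simp
  push_cast at h1
  push_cast
  rw [← hk]
  linear_combination (-x) * h1

theorem isCoprime_of_isCoprime_cast (hq : q.Prime) {m n : ℤ} (hm : IsCoprime m (q : ℤ))
    (h : IsCoprime ((m : ℤ) : Zq q) ((n : ℤ) : Zq q)) : IsCoprime m n := by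
  obtain ⟨u, v, huv⟩ := h
  obtain ⟨u0, k, hk⟩ := exists_int_pow u
  obtain ⟨v0, j, hj⟩ := exists_int_pow v
  have h1 : ((u0 * (q : ℤ) ^ j * m + v0 * (q : ℤ) ^ k * n : ℤ) : Zq q) =
      (((q : ℤ) ^ (k + j) : ℤ) : Zq q) := by
    push_cast
    rw [← hk, ← hj, pow_add]
    linear_combination ((q : Zq q) ^ k * (q : Zq q) ^ j) * huv
  have h2 := intCast_injective hq.ne_zero h1
  -- gcd(m, n) divides q ^ (k+j) and is prime to q
  have h3 : IsCoprime m ((q : ℤ) ^ (k + j)) := hm.pow_right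
  obtain ⟨r, s, hrs⟩ := h3
  refine ⟨r + s * (u0 * (q : ℤ) ^ j), s * (v0 * (q : ℤ) ^ k), ?_⟩
  rw [← hrs, ← h2]
  ring

theorem exists_unit_mul_nat (hq : q.Prime) (x : Zq q) (hx : x ≠ 0) :
    ∃ (ε : (Zq q)ˣ) (a0 : ℕ), 0 < a0 ∧ a0.Coprime q ∧ x = (ε : Zq q) * (a0 : Zq q) := by
  obtain ⟨n, k, hk⟩ := exists_int_pow x
  obtain ⟨uq, huq⟩ := isUnit_q q
  have hn : n ≠ 0 := by
    rintro rfl
    apply hx
    have : x * ((uq ^ k : (Zq q)ˣ) : Zq q) = 0 := by
      rw [Units.val_pow_eq_pow_val, huq]; simpa using hk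
    exact (Units.mul_left_eq_zero _).mp this
  have hnat : n.natAbs ≠ 0 := Int.natAbs_ne_zero.mpr hn
  obtain ⟨j, a0, ha0, hfac⟩ := Nat.exists_eq_pow_mul_and_not_dvd hnat q hq.ne_one
  have ha0pos : 0 < a0 := by
    rcases Nat.eq_zero_or_pos a0 with h | h
    · subst h; exact absurd (dvd_zero q) ha0
    · exact h
  have hcop : a0.Coprime q := ((Nat.Prime.coprime_iff_not_dvd hq).mpr ha0).symm
  have hinv : (((uq ^ k : (Zq q)ˣ)⁻¹ : (Zq q)ˣ) : Zq q) * ((q : ℕ) : Zq q) ^ k = 1 := by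
    rw [← huq, ← Units.val_pow_eq_pow_val, Units.inv_mul]
  have hx' : x = ((uq ^ k : (Zq q)ˣ)⁻¹ : (Zq q)ˣ) * (n : Zq q) := by
    rw [← hk, mul_comm x, ← mul_assoc, hinv, one_mul]
  rcases Int.natAbs_eq n with h | h
  · refine ⟨(uq ^ k)⁻¹ * uq ^ j, a0, ha0pos, hcop, ?_⟩
    rw [hx', h, hfac]
    push_cast
    rw [huq]
    ring
  · refine ⟨-((uq ^ k)⁻¹ * uq ^ j), a0, ha0pos, hcop, ?_⟩
    rw [hx', h, hfac]
    push_cast
    rw [huq]
    ring

end Fermat.Agent.LIhB
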