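import Fermat.Agent.L.Ihara.B.Mat
import Fermat.Agent.L.Ihara.Interfaces

/-!
# Cluster L / IHARA / (B), piece B-FIN: from the seed to centrality

`centralStatement_of_seed`: if every character of `G(M)/E(M)` is invariant under conjugation by
`l(-1)` (`SeedStatement q M`) and `SL₂(ℤ[1/q])` is generated by the elementary matrices, then
`G(M)/E(M)` is central modulo `p` (`LIh.CentralStatement q p M`).
-/

set_option autoImplicit false

noncomputable section

namespace Fermat.Agent.LIhB

open Fermat.Agent.LIh Matrix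
open scoped MatrixGroups

variable {q M : ℕ}

section Inv

variable {A : Type} [AddCommGroup A] {f : Gq q → A}

/-- A character is invariant under conjugation by the elements of `E(M)`. -/
theorem IsEChar.conj_elem (hf : IsEChar q M f) {e : Gq q} (he : e ∈ elem q M) {x : Gq q}
    (hx : x ∈ congr q M) : f (e * x * e⁻¹) = f x := by
  have he' : e⁻¹ ∈ elem q M := (elem q M).inv_mem he
  rw [hf.mul_elem ((congr q M).mul_mem (elem_le_congr he) hx) he', hf.elem_mul hx he]

/-- `t` is good if every character of `G(M)/E(M)` is invariant under conjugation by `l(t)`. -/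
def FinGood (q M : ℕ) (t : Zq q) : Prop :=
  ∀ (B : Type) [AddCommGroup B] (g : Gq q → B), IsEChar q M g →
    ∀ x ∈ congr q M, g (lower q t * x * (lower q t)⁻¹) = g x

theorem finGood_zero : FinGood q M 0 := by
  intro B _ g _ x _
  have h0 : lower q (0 : Zq q) = 1 := by
    apply ext2 <;> simp
  rw [h0]
  simp

theorem finGood_add {s t : Zq q} (hs : FinGood q M s) (ht : FinGood q M t) :
    FinGood q M (s + t) := by
  intro B _ g hg x hx
  have h1 : lower q (s + t) * x * (lower q (s + t))⁻¹ =
      lower q s * (lower q t * x * (lower q t)⁻¹) * (lower q s)⁻¹ := by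
    rw [lower_add]; group
  rw [h1, hs B g hg _ ((congr_normal q M).conj_mem x hx _), ht B g hg x hx]

theorem finGood_neg {t : Zq q} (ht : FinGood q M t) : FinGood q M (-t) := by
  intro B _ g hg x hx
  have hx' : lower q (-t) * x * (lower q (-t))⁻¹ ∈ congr q M :=
    (congr_normal q M).conj_mem x hx _
  have h1 := ht B g hg _ hx'
  have h2 : lower q t * (lower q (-t) * x * (lower q (-t))⁻¹) * (lower q t)⁻¹ = x := by
    rw [← lower_inv]; group
  rw [h2] at h1
  exact h1.symm

/-- The good `t` form an additive subgroup. -/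
def finGoodSubgroup (q M : ℕ) : AddSubgroup (Zq q) where
  carrier := {t | FinGood q M t}
  zero_mem' := finGood_zero
  add_mem' := fun hs ht => finGood_add hs ht
  neg_mem' := fun ht => finGood_neg ht

theorem mem_finGoodSubgroup {t : Zq q} : t ∈ finGoodSubgroup q M ↔ FinGood q M t := Iff.rfl

/-- Invariance under `l(-1)` implies invariance under `l(n)`, `n ∈ ℤ`, and then under every
`l(t)`. -/
theorem finGood_all (hMq : IsCoprime (M : ℤ) (q : ℤ)) (hseed : SeedStatement q M) (t : Zq q) :
    FinGood q M t := by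
  have hneg1 : (-1 : Zq q) ∈ finGoodSubgroup q M := by
    rw [mem_finGoodSubgroup]
    intro B _ g hg x hx
    exact @hseed B _ g hg x hx
  have h1 : (1 : Zq q) ∈ finGoodSubgroup q M := by
    have := (finGoodSubgroup q M).neg_mem hneg1
    rwa [neg_neg] at this
  have hint : ∀ n : ℤ, ((n : ℤ) : Zq q) ∈ finGoodSubgroup q M := by
    intro n
    have := (finGoodSubgroup q M).zsmul_mem h1 n
    rwa [zsmul_eq_mul, mul_one] at this
  have hM : ∀ s : Zq q, (M : Zq q) ∣ s → s ∈ finGoodSubgroup q M := by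
    intro s hs
    rw [mem_finGoodSubgroup]
    intro B _ g hg x hx
    exact hg.conj_elem (lower_mem_elem_of_dvd hs) hx
  obtain ⟨n, hn⟩ := exists_int_sub_dvd (q := q) hMq t
  have hn' : (M : Zq q) ∣ t - (n : Zq q) := by
    simpa using hn
  have := (finGoodSubgroup q M).add_mem (hM _ hn') (hint n)
  rwa [sub_add_cancel] at this

theorem fin_lower_invariant (hMq : IsCoprime (M : ℤ) (q : ℤ)) (hseed : SeedStatement q M)
    (hf : IsEChar q M f) (t : Zq q) :
    ∀ x ∈ congr q M, f (lower q t * x * (lower q t)⁻¹) = f x :=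
  finGood_all hMq hseed t A f hf

/-- Invariance under every `u(t)`. -/
theorem fin_upper_invariant (hMq : IsCoprime (M : ℤ) (q : ℤ)) (hseed : SeedStatement q M)
    (hf : IsEChar q M f) (t : Zq q) :
    ∀ x ∈ congr q M, f (upper q t * x * (upper q t)⁻¹) = f x := by
  intro x hx
  have hx' : (weyl q)⁻¹ * x * ((weyl q)⁻¹)⁻¹ ∈ congr q M := (congr_normal q M).conj_mem x hx _
  have h1 : f (weyl q * (lower q (-t) * ((weyl q)⁻¹ * x * ((weyl q)⁻¹)⁻¹) *
      (lower q (-t))⁻¹) * (weyl q)⁻¹) =
      f (weyl q * ((weyl q)⁻¹ * x * ((weyl q)⁻¹)⁻¹) * (weyl q)⁻¹) :=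
    fin_lower_invariant hMq hseed (hf.conj (weyl q)) (-t) _ hx'
  have h2 : weyl q * (lower q (-t) * ((weyl q)⁻¹ * x * ((weyl q)⁻¹)⁻¹) * (lower q (-t))⁻¹) *
      (weyl q)⁻¹ = upper q t * x * (upper q t)⁻¹ := by
    rw [upper_eq_conj]; group
  have h3 : weyl q * ((weyl q)⁻¹ * x * ((weyl q)⁻¹)⁻¹) * (weyl q)⁻¹ = x := by group
  rw [h2, h3] at h1
  exact h1

/-- Invariance under `SL₂(ℤ[1/q])`. -/
theorem fin_invariant
    (hgen : Subgroup.closure {g : Gq q | ∃ t, g = upper q t ∨ g = lower q t} = ⊤)
    (hMq : IsCoprime (M : ℤ) (q : ℤ)) (hseed : SeedStatement q M)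
    (hf : IsEChar q M f) (g : Gq q) :
    ∀ x ∈ congr q M, f (g * x * g⁻¹) = f x := by
  have hg : g ∈ Subgroup.closure {g : Gq q | ∃ t, g = upper q t ∨ g = lower q t} := by
    rw [hgen]; exact Subgroup.mem_top g
  induction hg using Subgroup.closure_induction with
  | mem y hy =>
    obtain ⟨t, rfl | rfl⟩ := hy
    · exact fin_upper_invariant hMq hseed hf t
    · exact fin_lower_invariant hMq hseed hf t
  | one => intro x _; simp
  | mul y z _ _ hy hz =>
    intro x hx
    have h1 : y * z * x * (y * z)⁻¹ = y * (z * x * z⁻¹) * y⁻¹ := by group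
    rw [h1, hy _ ((congr_normal q M).conj_mem x hx z), hz x hx]
  | inv y _ hy =>
    intro x hx
    have hx' : y⁻¹ * x * (y⁻¹)⁻¹ ∈ congr q M := (congr_normal q M).conj_mem x hx _
    have h1 := hy _ hx'
    have h2 : y * (y⁻¹ * x * (y⁻¹)⁻¹) * y⁻¹ = x := by group
    rw [h2] at h1
    exact h1.symm

end Inv

/-- The character of `SL₂(ℤ[1/q])` attached to a homomorphism on `G(M)`. -/
def finExt (q M : ℕ) {A : Type} [AddCommGroup A] (Φ : Additive (congr q M) →+ A) (g : Gq q) : A :=
  open Classical in if h : g ∈ congr q M then Φ (Additive.ofMul ⟨g, h⟩) else 0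

theorem finExt_of_mem {A : Type} [AddCommGroup A] (Φ : Additive (congr q M) →+ A) {g : Gq q}
    (h : g ∈ congr q M) : finExt q M Φ g = Φ (Additive.ofMul ⟨g, h⟩) := by
  unfold finExt
  rw [dif_pos h]

theorem finExt_isEChar {A : Type} [AddCommGroup A] (Φ : Additive (congr q M) →+ A)
    (hΦ : ∀ x : congr q M, (x : Gq q) ∈ elem q M → Φ (Additive.ofMul x) = 0) :
    IsEChar q M (finExt q M Φ) where
  mul x hx y hy := by
    rw [finExt_of_mem Φ hx, finExt_of_mem Φ hy, finExt_of_mem Φ ((congr q M).mul_mem hx hy),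
      ← map_add]
    rfl
  kills x hx := by
    rw [finExt_of_mem Φ (elem_le_congr hx)]
    exact hΦ ⟨x, elem_le_congr hx⟩ hx

/-- **B-FIN**: the seed and the generation of `SL₂(ℤ[1/q])` by elementary matrices give the
centrality statement (B). -/
theorem centralStatement_of_seed (q p M : ℕ)
    (hgen : Subgroup.closure {g : Gq q | ∃ t, g = upper q t ∨ g = lower q t} = ⊤)
    (hseed : SeedStatement q M) : LIh.CentralStatement q p M := by
  intro hq _ _ _ hMq Φ hΦ g x
  have hcop : IsCoprime (M : ℤ) (q : ℤ) := Nat.isCoprime_iff_coprime.mpr hMq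
  have hf := finExt_isEChar Φ hΦ
  have h := fin_invariant hgen hcop hseed hf g x x.2
  rw [finExt_of_mem Φ ((congr_normal q M).conj_mem x x.2 g), finExt_of_mem Φ x.2] at h
  exact h

end Fermat.Agent.LIhB
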