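import Fermat.Agent.L.Ihara.B.Mat
import Fermat.Agent.L.Ihara.BArith

/-!
# Cluster L / IHARA / (B): the seed of the unit trick

Owner: helper73.  `seedStatement`: every character of `G(M)/E(M)` is invariant under conjugation
by `l(-1)`.  Arithmetic input: `exists_unit_step` (helper59).
-/

set_option autoImplicit false
set_option linter.unusedSimpArgs false

noncomputable section

namespace Fermat.Agent.LIhB

open Fermat.Agent.LIh Matrix
open scoped MatrixGroups

variable {q M : ℕ} {A : Type} [AddCommGroup A] {f : Gq q → A}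

theorem natCast_ne_zero_Zq (hq : q ≠ 0) {n : ℕ} (hn : n ≠ 0) : ((n : ℕ) : Zq q) ≠ 0 := by
  intro h
  have h1 : ((n : ℤ) : Zq q) = ((0 : ℤ) : Zq q) := by simpa using h
  have h2 := intCast_injective hq h1
  exact hn (by exact_mod_cast h2)

/-- The core computation: for `x ∈ G(M)` with `a = x₀₀ ≠ 0`, `f (l(-1) x l(1)) = f x`. -/
theorem seed_of_ne_zero (hq : q.Prime) (hM : 0 < M) (hMq : M.Coprime q) (hf : IsEChar q M f)
    {x : Gq q} (hx : x ∈ congr q M) (ha : x 0 0 ≠ 0) :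
    f (lower q (-1) * x * (lower q (-1))⁻¹) = f x := by
  -- notation
  set g : Gq q := lower q (-1) with hg
  have hginv : g⁻¹ = lower q 1 := by rw [hg, lower_inv, neg_neg]
  obtain ⟨hx00, hx01, hx10, hx11⟩ := mem_congr'.mp hx
  have hdet := det_eq2 x
  -- `a = ε a0`
  obtain ⟨ε, a0, ha0pos, ha0q, haε⟩ := exists_unit_mul_nat hq (x 0 0) ha
  have hεinv : (ε : Zq q) * ((ε⁻¹ : (Zq q)ˣ) : Zq q) = 1 := Units.mul_inv ε
  have ha0qZ : IsCoprime (a0 : ℤ) (q : ℤ) := Nat.isCoprime_iff_coprime.mpr ha0q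
  -- `a0` is prime to `M`
  have hcopMZq : IsCoprime ((a0 : ℤ) : Zq q) ((M : ℤ) : Zq q) := by
    obtain ⟨r, hr⟩ := hx00
    refine ⟨(ε : Zq q), -r, ?_⟩
    push_cast
    linear_combination hr - haε
  have hcopM : IsCoprime (a0 : ℤ) (M : ℤ) := isCoprime_of_isCoprime_cast hq ha0qZ hcopMZq
  have ha0M : a0.Coprime M := Nat.isCoprime_iff_coprime.mp hcopM
  -- `b ≡ b0 mod a0`
  obtain ⟨b0, s, hs⟩ := exists_int_sub_dvd (q := q) ha0qZ (x 0 1)
  rw [Int.cast_natCast] at hs
  have hb0cop : IsCoprime b0 (a0 : ℤ) := by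
    have h1 : IsCoprime ((a0 : ℤ) : Zq q) ((b0 : ℤ) : Zq q) := by
      refine ⟨(ε : Zq q) * x 1 1 - s * x 1 0, - x 1 0, ?_⟩
      have hb : x 0 1 = (b0 : Zq q) + (a0 : Zq q) * s := by linear_combination hs
      rw [haε, hb] at hdet
      push_cast at hdet ⊢
      linear_combination hdet
    exact (isCoprime_of_isCoprime_cast hq ha0qZ h1).symm
  -- the arithmetic step
  obtain ⟨K, b', σ, hb'pos, hMb', hb'b0, hK, hσ⟩ :=
    exists_unit_step q M a0 b0 hq hM hMq ha0pos ha0q ha0M hb0cop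
  -- the unit `θ = q ^ K`
  obtain ⟨uq, huq⟩ := isUnit_q q
  set θ : (Zq q)ˣ := uq ^ K with hθdef
  have hθval : (θ : Zq q) = ((q : ℕ) : Zq q) ^ K := by
    rw [hθdef, Units.val_pow_eq_pow_val, huq]
  have hθinv : (θ : Zq q) * ((θ⁻¹ : (Zq q)ˣ) : Zq q) = 1 := Units.mul_inv θ
  have hθ1 : (θ : Zq q) - 1 = (a0 : Zq q) * (b' : Zq q) * (σ : Zq q) := by
    have h := congrArg (Int.cast : ℤ → Zq q) hK
    push_cast at h
    rw [hθval]
    exact h
  -- divisibilities
  obtain ⟨m', hm'⟩ := hMb'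
  have hMb'Zq : (M : Zq q) ∣ (b' : Zq q) := ⟨(m' : Zq q), by rw [hm']; push_cast; ring⟩
  have ha0_dvd : ((a0 : ℤ) : Zq q) ∣ (b' : Zq q) - x 0 1 := by
    have h1 : (a0 : ℤ) ∣ (b' : ℤ) - b0 := (Int.modEq_iff_dvd.mp hb'b0.symm)
    obtain ⟨e, he⟩ := h1
    refine ⟨(e : Zq q) - s, ?_⟩
    have he' := congrArg (Int.cast : ℤ → Zq q) he
    push_cast at he' ⊢
    linear_combination he' - hs
  have hM_dvd : ((M : ℤ) : Zq q) ∣ (b' : Zq q) - x 0 1 := by
    have : ((M : ℤ) : Zq q) = (M : Zq q) := by simp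
    rw [this]
    exact dvd_sub hMb'Zq hx01
  obtain ⟨t0, ht0⟩ := IsCoprime.mul_dvd hcopMZq.symm hM_dvd ha0_dvd
  -- `x' = x * u(M t)` has first row `(a, b')`
  set t : Zq q := ((ε⁻¹ : (Zq q)ˣ) : Zq q) * t0 with ht
  have hu_mem : upper q ((M : Zq q) * t) ∈ elem q M := upper_mem_elem t
  set x' : Gq q := x * upper q ((M : Zq q) * t) with hx'
  have hx'mem : x' ∈ congr q M := (congr q M).mul_mem hx (elem_le_congr hu_mem)
  have hx'00 : x' 0 0 = x 0 0 := by
    rw [hx', mul_apply2, upper_00, upper_10]; ring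
  have hx'01 : x' 0 1 = (b' : Zq q) := by
    rw [hx', mul_apply2, upper_01, upper_11, ht, haε]
    push_cast at ht0
    linear_combination (-1 : Zq q) * ht0 + ((M : Zq q) * (a0 : Zq q) * t0) * hεinv
  -- it suffices to treat `x'`
  suffices hsuff : f (g * x' * g⁻¹) = f x' by
    have hconj : g * x' * g⁻¹ = (g * x * g⁻¹) * (g * upper q ((M : Zq q) * t) * g⁻¹) := by
      rw [hx']; group
    rw [hconj, hf.mul_elem ((congr_normal q M).conj_mem x hx _)
      ((elem_normal q M).conj_mem _ hu_mem _), hf.mul_elem hx hu_mem] at hsuff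
    exact hsuff
  -- the comparison element
  set i : Zq q := ((θ⁻¹ : (Zq q)ˣ) : Zq q) with hi
  set e : Zq q := ((ε⁻¹ : (Zq q)ˣ) : Zq q) with he
  set t1 : Zq q := (b' : Zq q) * ((b' : Zq q) * (σ : Zq q) * i * i * e) with ht1
  set t2 : Zq q := 1 - x 0 0 * (a0 : Zq q) * (σ : Zq q) with ht2
  have hd_mem : diagU q θ ∈ elem q M := by
    apply diagU_mem_elem
    rw [hθ1]
    exact Dvd.dvd.mul_right (Dvd.dvd.mul_left hMb'Zq _) _
  have ht1_mem : upper q t1 ∈ elem q M :=
    upper_mem_elem_of_dvd (Dvd.dvd.mul_right hMb'Zq _)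
  have ht2_mem : lower q t2 ∈ elem q M := by
    apply lower_mem_elem_of_dvd
    have h1 : (M : ℤ) ∣ (a0 : ℤ) * σ - 1 := (Int.modEq_iff_dvd.mp hσ.symm)
    obtain ⟨c, hc⟩ := h1
    have hc' := congrArg (Int.cast : ℤ → Zq q) hc
    push_cast at hc'
    obtain ⟨r, hr⟩ := hx00
    refine ⟨-(r * (a0 : Zq q) * (σ : Zq q)) - c, ?_⟩
    rw [ht2]
    linear_combination (-(a0 : Zq q) * (σ : Zq q)) * hr - hc'
  set P : Gq q := x' * diagU q θ * upper q t1 * lower q t2 with hP
  have hP1 : x' * diagU q θ ∈ congr q M := (congr q M).mul_mem hx'mem (elem_le_congr hd_mem)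
  have hP2 : x' * diagU q θ * upper q t1 ∈ congr q M :=
    (congr q M).mul_mem hP1 (elem_le_congr ht1_mem)
  have hPmem : P ∈ congr q M := (congr q M).mul_mem hP2 (elem_le_congr ht2_mem)
  have hfP : f P = f x' := by
    rw [hP, hf.mul_elem hP2 ht2_mem, hf.mul_elem hP1 ht1_mem, hf.mul_elem hx'mem hd_mem]
  have hgmem : g * x' * g⁻¹ ∈ congr q M := (congr_normal q M).conj_mem x' hx'mem g
  -- first rows
  have hrow01 : (x' * diagU q θ * upper q t1) 0 1 = (b' : Zq q) := by
    simp only [mul_apply2, diagU_00, diagU_01, diagU_10, diagU_11, upper_00, upper_01, upper_10,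
      upper_11, hx'00, hx'01]
    rw [ht1, haε]
    linear_combination ((a0 : Zq q) * (θ : Zq q) * (b' : Zq q) ^ 2 * (σ : Zq q) * i ^ 2) * hεinv +
      ((a0 : Zq q) * (b' : Zq q) ^ 2 * (σ : Zq q) * i + (b' : Zq q)) * hθinv -
      ((b' : Zq q) * i) * hθ1
  have hrow00 : (x' * diagU q θ * upper q t1) 0 0 = x 0 0 * (θ : Zq q) := by
    simp only [mul_apply2, diagU_00, diagU_01, diagU_10, diagU_11, upper_00, upper_01, upper_10,
      upper_11, hx'00, hx'01]
    ring
  have hP00 : P 0 0 = x 0 0 + (b' : Zq q) := by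
    rw [hP, mul_apply2, hrow00, hrow01, lower_00, lower_10, ht2]
    linear_combination (x 0 0) * hθ1
  have hP01 : P 0 1 = (b' : Zq q) := by
    rw [hP, mul_apply2, hrow00, hrow01, lower_01, lower_11]
    ring
  have hg00 : (g * x' * g⁻¹) 0 0 = x 0 0 + (b' : Zq q) := by
    rw [hginv, hg]
    simp only [mul_apply2, lower_00, lower_01, lower_10, lower_11, hx'00, hx'01]
    ring
  have hg01 : (g * x' * g⁻¹) 0 1 = (b' : Zq q) := by
    rw [hginv, hg]
    simp only [mul_apply2, lower_00, lower_01, lower_10, lower_11, hx'00, hx'01]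
    ring
  rw [← hfP]
  exact hf.eq_of_row hgmem hPmem (by rw [hg00, hP00]) (by rw [hg01, hP01])

theorem seedStatement (q M : ℕ) (hq : q.Prime) (hM : 0 < M) (hMq : M.Coprime q) :
    SeedStatement q M := by
  intro A _ f hf x hx
  by_cases ha : x 0 0 = 0
  · -- replace `x` by `x * l(M)`
    have hl : lower q (M : Zq q) ∈ elem q M := lower_mem_elem_of_dvd dvd_rfl
    have hx1 : x * lower q (M : Zq q) ∈ congr q M :=
      (congr q M).mul_mem hx (elem_le_congr hl)
    have hne : (x * lower q (M : Zq q)) 0 0 ≠ 0 := by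
      rw [mul_apply2, lower_00, lower_10, ha]
      intro h
      have hd := det_eq2 x
      rw [ha] at hd
      have hM0 : ((M : ℕ) : Zq q) = 0 := by
        have : (M : Zq q) = - ((x 0 1 * (M : Zq q)) * x 1 0) + (M : Zq q) * (0 * x 1 1 - x 0 1 * x 1 0 - 1) * (-1) := by
          ring
        rw [this, hd]
        simp only [zero_mul, zero_add] at h
        rw [h]
        ring
      exact natCast_ne_zero_Zq hq.ne_zero hM.ne' hM0
    have h1 := seed_of_ne_zero hq hM hMq hf hx1 hne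
    have hconj : lower q (-1) * (x * lower q (M : Zq q)) * (lower q (-1))⁻¹ =
        (lower q (-1) * x * (lower q (-1))⁻¹) *
          (lower q (-1) * lower q (M : Zq q) * (lower q (-1))⁻¹) := by group
    rw [hconj, hf.mul_elem ((congr_normal q M).conj_mem x hx _)
      ((elem_normal q M).conj_mem _ hl _), hf.mul_elem hx hl] at h1
    exact h1
  · exact seed_of_ne_zero hq hM hMq hf hx ha

end Fermat.Agent.LIhB
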