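import Fermat.Agent.L.Ihara.B.Fin
import Fermat.Agent.L.Ihara.B.Seed
import Fermat.Agent.L.Ihara.Gen

/-!
# Cluster L / IHARA / (B): centrality of `G(M)/E(M)` in `SL₂(ℤ[1/q])/E(M)`, unconditionally

`centralStatement q p M : LIh.CentralStatement q p M`, assembled from
* `seedStatement` (helper73, `B/Seed.lean`, with helper59's `exists_unit_step`),
* `closure_upper_lower` (`Gen.lean`),
* `centralStatement_of_seed` (`B/Fin.lean`).
-/

set_option autoImplicit false

namespace Fermat.Agent.LIhB

open Fermat.Agent.LIh

/-- **(B)**: every homomorphism `G(M) → 𝔽_p` killing `E(M)` is invariant under conjugation by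
`SL₂(ℤ[1/q])`. -/
theorem centralStatement (q p M : ℕ) : LIh.CentralStatement q p M := by
  intro hq hp hqp hM hMq
  exact centralStatement_of_seed q p M (closure_upper_lower q hq) (seedStatement q M hq hM hMq)
    hq hp hqp hM hMq

end Fermat.Agent.LIhB
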