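import Fermat.Agent.L.Ihara.B.Zq

/-!
# Cluster L / IHARA / (B): matrix side of the unit trick

Owner: helper73.  `IsEChar q M f`: `f : SL₂(ℤ[1/q]) → A` is additive on `G(M)` and kills `E(M)`.
Main result `isEChar_conj_lower_neg_one`: such an `f` is invariant under conjugation by `l(-1)`,
given the arithmetic input `UnitStep q M` (helper59, `BArith.lean`).
-/

set_option autoImplicit false

noncomputable section

namespace Fermat.Agent.LIhB

open Fermat.Agent.LIh Matrix
open scoped MatrixGroups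

variable {q M : ℕ}

/-! ### entries -/

theorem mul_apply2 (x y : Gq q) (i j : Fin 2) :
    (x * y) i j = x i 0 * y 0 j + x i 1 * y 1 j := by
  rw [Matrix.SpecialLinearGroup.coe_mul, Matrix.mul_apply, Fin.sum_univ_two]

theorem det_eq2 (x : Gq q) : x 0 0 * x 1 1 - x 0 1 * x 1 0 = 1 := by
  have h := x.det_coe
  rw [Matrix.det_fin_two] at h
  exact h

theorem inv_apply_00 (x : Gq q) : (x⁻¹) 0 0 = x 1 1 := by
  rw [Matrix.SpecialLinearGroup.coe_inv, Matrix.adjugate_fin_two]; rfl

theorem inv_apply_01 (x : Gq q) : (x⁻¹) 0 1 = - x 0 1 := by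
  rw [Matrix.SpecialLinearGroup.coe_inv, Matrix.adjugate_fin_two]; rfl

theorem inv_apply_10 (x : Gq q) : (x⁻¹) 1 0 = - x 1 0 := by
  rw [Matrix.SpecialLinearGroup.coe_inv, Matrix.adjugate_fin_two]; rfl

theorem inv_apply_11 (x : Gq q) : (x⁻¹) 1 1 = x 0 0 := by
  rw [Matrix.SpecialLinearGroup.coe_inv, Matrix.adjugate_fin_two]; rfl

@[simp] theorem upper_00 (t : Zq q) : (upper q t) 0 0 = 1 := rfl
@[simp] theorem upper_01 (t : Zq q) : (upper q t) 0 1 = t := rfl
@[simp] theorem upper_10 (t : Zq q) : (upper q t) 1 0 = 0 := rfl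
@[simp] theorem upper_11 (t : Zq q) : (upper q t) 1 1 = 1 := rfl
@[simp] theorem lower_00 (t : Zq q) : (lower q t) 0 0 = 1 := rfl
@[simp] theorem lower_01 (t : Zq q) : (lower q t) 0 1 = 0 := rfl
@[simp] theorem lower_10 (t : Zq q) : (lower q t) 1 0 = t := rfl
@[simp] theorem lower_11 (t : Zq q) : (lower q t) 1 1 = 1 := rfl

theorem ext2 {x y : Gq q} (h00 : x 0 0 = y 0 0) (h01 : x 0 1 = y 0 1) (h10 : x 1 0 = y 1 0)
    (h11 : x 1 1 = y 1 1) : x = y := by
  apply Subtype.ext
  ext i j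
  fin_cases i <;> fin_cases j
  · exact h00
  · exact h01
  · exact h10
  · exact h11

/-- The Weyl element `[0, -1; 1, 0]`. -/
def weyl (q : ℕ) : Gq q := ⟨!![0, -1; 1, 0], by simp [Matrix.det_fin_two_of]⟩

@[simp] theorem weyl_00 : (weyl q) 0 0 = 0 := rfl
@[simp] theorem weyl_01 : (weyl q) 0 1 = -1 := rfl
@[simp] theorem weyl_10 : (weyl q) 1 0 = 1 := rfl
@[simp] theorem weyl_11 : (weyl q) 1 1 = 0 := rfl

/-- The diagonal matrix `[θ, 0; 0, θ⁻¹]`. -/
def diagU (q : ℕ) (θ : (Zq q)ˣ) : Gq q :=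
  ⟨!![(θ : Zq q), 0; 0, ((θ⁻¹ : (Zq q)ˣ) : Zq q)], by simp [Matrix.det_fin_two_of]⟩

@[simp] theorem diagU_00 (θ : (Zq q)ˣ) : (diagU q θ) 0 0 = θ := rfl
@[simp] theorem diagU_01 (θ : (Zq q)ˣ) : (diagU q θ) 0 1 = 0 := rfl
@[simp] theorem diagU_10 (θ : (Zq q)ˣ) : (diagU q θ) 1 0 = 0 := rfl
@[simp] theorem diagU_11 (θ : (Zq q)ˣ) : (diagU q θ) 1 1 = ((θ⁻¹ : (Zq q)ˣ) : Zq q) := rfl

theorem lower_eq_conj (t : Zq q) : lower q t = weyl q * upper q (-t) * (weyl q)⁻¹ := by
  apply ext2 <;>
    simp only [mul_apply2, inv_apply_00, inv_apply_01, inv_apply_10, inv_apply_11, weyl_00,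
      weyl_01, weyl_10, weyl_11, upper_00, upper_01, upper_10, upper_11, lower_00, lower_01,
      lower_10, lower_11] <;> ring

theorem upper_eq_conj (t : Zq q) : upper q t = weyl q * lower q (-t) * (weyl q)⁻¹ := by
  apply ext2 <;>
    simp only [mul_apply2, inv_apply_00, inv_apply_01, inv_apply_10, inv_apply_11, weyl_00,
      weyl_01, weyl_10, weyl_11, upper_00, upper_01, upper_10, upper_11, lower_00, lower_01,
      lower_10, lower_11] <;> ring

theorem upper_add (s t : Zq q) : upper q (s + t) = upper q s * upper q t := by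
  apply ext2 <;> simp [mul_apply2, add_comm]

theorem lower_add (s t : Zq q) : lower q (s + t) = lower q s * lower q t := by
  apply ext2 <;> simp [mul_apply2]

theorem lower_inv (t : Zq q) : (lower q t)⁻¹ = lower q (-t) := by
  apply ext2 <;> simp [inv_apply_00, inv_apply_01, inv_apply_10, inv_apply_11]

theorem upper_inv (t : Zq q) : (upper q t)⁻¹ = upper q (-t) := by
  apply ext2 <;> simp [inv_apply_00, inv_apply_01, inv_apply_10, inv_apply_11]

/-! ### membership in `G(M)` and `E(M)` -/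

theorem mem_congr' {g : Gq q} : g ∈ congr q M ↔
    (M : Zq q) ∣ g 0 0 - 1 ∧ (M : Zq q) ∣ g 0 1 ∧ (M : Zq q) ∣ g 1 0 ∧ (M : Zq q) ∣ g 1 1 - 1 := by
  rw [mem_congr]
  constructor
  · intro h
    have h00 := h 0 0
    have h01 := h 0 1
    have h10 := h 1 0
    have h11 := h 1 1
    simp at h00 h01 h10 h11
    exact ⟨h00, h01, h10, h11⟩
  · rintro ⟨h00, h01, h10, h11⟩ i j
    fin_cases i <;> fin_cases j <;> simpa

theorem upper_mem_elem (t : Zq q) : upper q ((M : Zq q) * t) ∈ elem q M :=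
  Subgroup.subset_normalClosure ⟨t, rfl⟩

theorem upper_mem_elem_of_dvd {s : Zq q} (h : (M : Zq q) ∣ s) : upper q s ∈ elem q M := by
  obtain ⟨t, rfl⟩ := h
  exact upper_mem_elem t

theorem lower_mem_elem_of_dvd {s : Zq q} (h : (M : Zq q) ∣ s) : lower q s ∈ elem q M := by
  rw [lower_eq_conj]
  exact (elem_normal q M).conj_mem _ (upper_mem_elem_of_dvd ((dvd_neg).2 h)) _

theorem upper_mem_congr_of_dvd {s : Zq q} (h : (M : Zq q) ∣ s) : upper q s ∈ congr q M := by
  rw [mem_congr']
  simp [h]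

theorem elem_le_congr : elem q M ≤ congr q M := by
  apply Subgroup.normalClosure_le_normal
  rintro g ⟨t, rfl⟩
  exact upper_mem_congr_of_dvd (Dvd.intro _ rfl)

/-- Whitehead: `diag(θ, θ⁻¹) ∈ E(M)` for a unit `θ ≡ 1 mod M`. -/
theorem diagU_mem_elem (θ : (Zq q)ˣ) (h : (M : Zq q) ∣ (θ : Zq q) - 1) :
    diagU q θ ∈ elem q M := by
  have hθ : (θ : Zq q) * ((θ⁻¹ : (Zq q)ˣ) : Zq q) = 1 := Units.mul_inv θ
  have hθ' : ((θ⁻¹ : (Zq q)ˣ) : Zq q) * (θ : Zq q) = 1 := Units.inv_mul θ
  set i : Zq q := ((θ⁻¹ : (Zq q)ˣ) : Zq q) with hi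
  have key0 : diagU q θ =
      lower q (-i) * upper q ((θ : Zq q) - 1) * lower q 1 * upper q (-(i * ((θ : Zq q) - 1))) := by
    apply ext2
    · simp only [mul_apply2, lower_00, lower_01, lower_10, lower_11, upper_00,
        upper_01, upper_10, upper_11, diagU_00]
      ring
    · simp only [mul_apply2, lower_00, lower_01, lower_10, lower_11, upper_00,
        upper_01, upper_10, upper_11, diagU_01]
      linear_combination ((θ : Zq q) - 1) * hθ
    · simp only [mul_apply2, lower_00, lower_01, lower_10, lower_11, upper_00,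
        upper_01, upper_10, upper_11, diagU_10]
      linear_combination hθ'
    · simp only [mul_apply2, lower_00, lower_01, lower_10, lower_11, upper_00,
        upper_01, upper_10, upper_11, diagU_11]
      linear_combination (-(i * ((θ : Zq q) - 1)) + 1) * hθ'
  have key1 : lower q (-i) * upper q ((θ : Zq q) - 1) * lower q 1 =
      (lower q (-i) * upper q ((θ : Zq q) - 1) * (lower q (-i))⁻¹) *
        lower q (i * ((θ : Zq q) - 1)) := by
    have h2 : lower q (i * ((θ : Zq q) - 1)) = lower q (-i) * lower q 1 := by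
      rw [← lower_add]
      congr 1
      linear_combination hθ'
    rw [h2]
    group
  rw [key0, key1]
  refine (elem q M).mul_mem ((elem q M).mul_mem ?_ ?_) ?_
  · exact (elem_normal q M).conj_mem _ (upper_mem_elem_of_dvd h) _
  · exact lower_mem_elem_of_dvd (Dvd.dvd.mul_left h _)
  · exact upper_mem_elem_of_dvd ((dvd_neg).2 (Dvd.dvd.mul_left h _))


/-! ### characters of `G(M)/E(M)` -/

/-- `f : SL₂(ℤ[1/q]) → A` is additive on `G(M)` and kills `E(M)` (no condition outside `G(M)`). -/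
structure IsEChar (q M : ℕ) {A : Type} [AddCommGroup A] (f : Gq q → A) : Prop where
  mul : ∀ x ∈ congr q M, ∀ y ∈ congr q M, f (x * y) = f x + f y
  kills : ∀ x ∈ elem q M, f x = 0

section EChar

variable {A : Type} [AddCommGroup A] {f : Gq q → A}

theorem IsEChar.mul_elem (hf : IsEChar q M f) {x e : Gq q} (hx : x ∈ congr q M)
    (he : e ∈ elem q M) : f (x * e) = f x := by
  rw [hf.mul x hx e (elem_le_congr he), hf.kills e he, add_zero]

theorem IsEChar.elem_mul (hf : IsEChar q M f) {x e : Gq q} (hx : x ∈ congr q M)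
    (he : e ∈ elem q M) : f (e * x) = f x := by
  rw [hf.mul e (elem_le_congr he) x hx, hf.kills e he, zero_add]

/-- The conjugate of a character by `g ∈ SL₂(ℤ[1/q])` is a character. -/
theorem IsEChar.conj (hf : IsEChar q M f) (g : Gq q) :
    IsEChar q M (fun x => f (g * x * g⁻¹)) where
  mul x hx y hy := by
    have h : g * (x * y) * g⁻¹ = (g * x * g⁻¹) * (g * y * g⁻¹) := by group
    show f (g * (x * y) * g⁻¹) = _
    rw [h]
    exact hf.mul _ ((congr_normal q M).conj_mem x hx g) _ ((congr_normal q M).conj_mem y hy g)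
  kills x hx := hf.kills _ ((elem_normal q M).conj_mem x hx g)

theorem IsEChar.sub {f₁ f₂ : Gq q → A} (h₁ : IsEChar q M f₁) (h₂ : IsEChar q M f₂) :
    IsEChar q M (fun x => f₁ x - f₂ x) where
  mul x hx y hy := by
    show f₁ (x * y) - f₂ (x * y) = _
    rw [h₁.mul x hx y hy, h₂.mul x hx y hy]
    abel
  kills x hx := by
    show f₁ x - f₂ x = 0
    rw [h₁.kills x hx, h₂.kills x hx, sub_zero]

/-- Two elements of `G(M)` with the same first row have the same value. -/
theorem IsEChar.eq_of_row (hf : IsEChar q M f) {x y : Gq q} (hx : x ∈ congr q M)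
    (hy : y ∈ congr q M) (h0 : x 0 0 = y 0 0) (h1 : x 0 1 = y 0 1) : f x = f y := by
  have hxd := det_eq2 x
  have hyd := det_eq2 y
  rw [h0, h1] at hxd
  have key : y = lower q (y 1 0 * x 1 1 - y 1 1 * x 1 0) * x := by
    apply ext2
    · simp only [mul_apply2, lower_00, lower_01]; rw [h0]; ring
    · simp only [mul_apply2, lower_00, lower_01]; rw [h1]; ring
    · simp only [mul_apply2, lower_10, lower_11]
      rw [h0]
      linear_combination (-(y 1 0)) * hxd + (x 1 0) * hyd
    · simp only [mul_apply2, lower_10, lower_11]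
      rw [h1]
      linear_combination (-(y 1 1)) * hxd + (x 1 1) * hyd
  have hs : lower q (y 1 0 * x 1 1 - y 1 1 * x 1 0) ∈ elem q M := by
    apply lower_mem_elem_of_dvd
    have hx10 := (mem_congr'.mp hx).2.2.1
    have hy10 := (mem_congr'.mp hy).2.2.1
    exact dvd_sub (Dvd.dvd.mul_right hy10 _) (Dvd.dvd.mul_left hx10 _)
  rw [key, hf.elem_mul hx hs]

end EChar

/-- **Seed**: every character of `G(M)/E(M)` is invariant under conjugation by `l(-1)`. -/
def SeedStatement (q M : ℕ) : Prop :=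
  ∀ {A : Type} [AddCommGroup A] (f : Gq q → A), IsEChar q M f →
    ∀ x ∈ congr q M, f (lower q (-1) * x * (lower q (-1))⁻¹) = f x

end Fermat.Agent.LIhB
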